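/-
KL-A, EXPORT (helper39): the good model of `X₀(M)` at a prime `ℓ ∤ M`, over an ARBITRARY discrete
valuation ring `A₀` of residue characteristic `ℓ` of an arbitrary subfield `K₀` of `ℚ̄`
(`K₀` is an abstract type with `[Algebra K₀ Kbar]`: number fields, the inertia field, ...).

For a base coordinate `D : BaseData M ℓ` (`j` if `ℓ ≥ 5`, `h₂` if `ℓ = 3`, `h₃` if `ℓ = 2`) and the
Gauss valuation ring `Ow` of `FK K₀ M`:
* `isVert_base`    : `Ow` is the only vertical valuation, `e = 1`, separable residue extension;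
* `isChart_base`, `isChart_base_inv` : the two charts are good charts (`S18.IsChart`: normal,
  noetherian, `q`-expansion principle, `Ow` = localisation, special fibre a Dedekind domain);
* `isCover_base`   : they are finite over `A₀[x]`, `A₀[x⁻¹]` and glue.
-/
import Mathlib
import Fermat.Agent.S18.Defs
import Fermat.Agent.S18.ModDefs
import Fermat.Agent.S18.Gauss.Field
import Fermat.Agent.S18.Gauss.VertJ
import Fermat.Agent.S18.Chart.Mono
import Fermat.Agent.S18.Chart.IsChart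
import Fermat.Agent.S18.Chart.Cover
import Fermat.Agent.S18.Base.Coord
import Fermat.Agent.S18.Base.Bases
import Fermat.Agent.S18.Places.Unram
import Fermat.Agent.S18.Descent.Chart
import Fermat.Agent.S18.Descent.Union
import Fermat.Agent.S18.Descent.JLine

set_option autoImplicit false
set_option linter.style.haveILetI false

noncomputable section

namespace Fermat.Agent.S18.Export

open Polynomial IntermediateField ModularCurve AlgebraicCurve Fermat.Agent.S24 Fermat.Agent.S18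
open Fermat.Agent.S24.FF

variable {K₀ : Type*} [Field K₀] [Algebra ℚ K₀] {A₀ : ValuationSubring K₀} {ϖ₀ : K₀}

theorem expMap_map_int {R S : Type*} [CommRing R] [CommRing S] (f : R →+* S) (g : ℤ[X]) :
    (g.map (Int.castRingHom R)).map f = g.map (Int.castRingHom S) := by
  rw [Polynomial.map_map]
  congr 1
  exact Subsingleton.elim _ _

theorem baseChangeMap_xK {M ℓ : ℕ} (D : BaseData M ℓ) {L L' : Type*} [Field L] [Algebra ℚ L]
    [Field L'] [Algebra ℚ L'] (φ : L →+* L') :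
    Descent.baseChangeMap (modularFunctionFieldFull M) φ (D.xK L) = D.xK L' :=
  Subtype.ext (Descent.coeffMap_coeffEmb' _ _)

theorem isAlgebraic_Kbar [Algebra K₀ Kbar] : Algebra.IsAlgebraic K₀ Kbar := by
  haveI : IsScalarTower ℚ K₀ Kbar := IsScalarTower.of_algebraMap_eq fun r => by
    rw [← RingHom.comp_apply]
    exact congrArg (fun f : ℚ →+* Kbar => f r) (Subsingleton.elim _ _)
  haveI : Algebra.IsAlgebraic ℚ Kbar := by
    have h : (DivisionRing.toRatAlgebra : Algebra ℚ (AlgebraicClosure ℚ)) =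
        AlgebraicClosure.instAlgebra ℚ := Subsingleton.elim _ _
    have h1 : @Algebra.IsAlgebraic ℚ (AlgebraicClosure ℚ) _ _ (AlgebraicClosure.instAlgebra ℚ) :=
      AlgebraicClosure.isAlgebraic ℚ
    convert h1
  exact Algebra.IsAlgebraic.tower_top (K := ℚ) K₀

/-- The branch locus of the coordinate, over `K₀`. -/
theorem isUnramOutside_base [Algebra K₀ Kbar] {M ℓ : ℕ} [NeZero M] (D : BaseData M ℓ) :
    IsUnramOutside (D.xK K₀) (D.g₁.map (Int.castRingHom K₀)) := by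
  haveI : CharZero K₀ := algebraRat.charZero K₀
  haveI : Algebra.IsAlgebraic K₀ Kbar := isAlgebraic_Kbar
  have htrbar : Transcendental Kbar (D.xK Kbar) := transcendental_xK D Kbar
  haveI : FiniteDimensional Kbar⟮D.xK Kbar⟯ (FK Kbar M) := IsFF1.finite _ htrbar
  apply isUnramOutside_descent
    (Descent.baseChangeMap (modularFunctionFieldFull M) (algebraMap K₀ Kbar))
    (Descent.baseChangeMap_algebraMap (F₀ := modularFunctionFieldFull M) (algebraMap K₀ Kbar))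
  rw [expMap_map_int, baseChangeMap_xK]
  exact isUnramOutside_of_places htrbar _ fun v c hc hv => D.ram₁ v c hc hv

theorem isUnramOutside_base_inv [Algebra K₀ Kbar] {M ℓ : ℕ} [NeZero M] (D : BaseData M ℓ) :
    IsUnramOutside (D.xK K₀)⁻¹ (D.g₂.map (Int.castRingHom K₀)) := by
  haveI : CharZero K₀ := algebraRat.charZero K₀
  haveI : Algebra.IsAlgebraic K₀ Kbar := isAlgebraic_Kbar
  have htrbar : Transcendental Kbar (D.xK Kbar) := transcendental_xK D Kbar
  have htrbar' : Transcendental Kbar (D.xK Kbar)⁻¹ := FF.transcendental_inv htrbar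
  haveI : FiniteDimensional Kbar⟮(D.xK Kbar)⁻¹⟯ (FK Kbar M) := IsFF1.finite _ htrbar'
  apply isUnramOutside_descent
    (Descent.baseChangeMap (modularFunctionFieldFull M) (algebraMap K₀ Kbar))
    (Descent.baseChangeMap_algebraMap (F₀ := modularFunctionFieldFull M) (algebraMap K₀ Kbar))
  rw [expMap_map_int, map_inv₀, baseChangeMap_xK]
  exact isUnramOutside_of_places htrbar' _ fun v c hc hv => D.ram₂ v c hc hv

section Main

variable {M ℓ : ℕ} [NeZero M] [Fact ℓ.Prime]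

/-- The Gauss valuation ring is the only vertical valuation ring of `FK K₀ M`, relative to the
coordinate `x`. -/
theorem isVert_base (h₀ : IsUnif A₀ ϖ₀) (hℓ : ¬ ℓ ∣ M) (hℓA : (ℓ : K₀) / ϖ₀ ∈ A₀)
    (D : BaseData M ℓ) {Ow : ValuationSubring (FK K₀ M)} (hG : IsGauss A₀ ϖ₀ (FK K₀ M) Ow) :
    IsVert A₀ ϖ₀ Ow K₀⟮D.xK K₀⟯ := by
  obtain ⟨U, -, -⟩ := S28.Export.exists_good_UData M ℓ hℓ
  exact (isVert_j h₀ hℓ hℓA U hG).mono (adjoin_jK_le D K₀)

theorem isChart_base [Algebra K₀ Kbar] (h₀ : IsUnif A₀ ϖ₀) (hℓ : ¬ ℓ ∣ M)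
    (hℓA : (ℓ : K₀) / ϖ₀ ∈ A₀) (D : BaseData M ℓ) {Ow : ValuationSubring (FK K₀ M)}
    (hG : IsGauss A₀ ϖ₀ (FK K₀ M) Ow) :
    IsChart Ow (algebraMap K₀ (FK K₀ M) ϖ₀) (chart A₀.toSubring (D.xK K₀)) := by
  haveI : CharZero K₀ := algebraRat.charZero K₀
  refine isChart_chart (isVert_base h₀ hℓ hℓA D hG) (isCoord_base h₀ D hG)
    (D.g₁.map (Int.castRingHom A₀)) (squarefree_map_residue h₀ hℓA D.g₁ D.sep₁) ?_
  rw [expMap_map_int]
  exact isUnramOutside_base D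

theorem isChart_base_inv [Algebra K₀ Kbar] (h₀ : IsUnif A₀ ϖ₀) (hℓ : ¬ ℓ ∣ M)
    (hℓA : (ℓ : K₀) / ϖ₀ ∈ A₀) (D : BaseData M ℓ) {Ow : ValuationSubring (FK K₀ M)}
    (hG : IsGauss A₀ ϖ₀ (FK K₀ M) Ow) :
    IsChart Ow (algebraMap K₀ (FK K₀ M) ϖ₀) (chart A₀.toSubring (D.xK K₀)⁻¹) := by
  haveI : CharZero K₀ := algebraRat.charZero K₀
  refine isChart_chart (isVert_base h₀ hℓ hℓA D hG) (isCoord_base_inv h₀ D hG)
    (D.g₂.map (Int.castRingHom A₀)) (squarefree_map_residue h₀ hℓA D.g₂ D.sep₂) ?_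
  rw [expMap_map_int]
  exact isUnramOutside_base_inv D

theorem isCover_base (h₀ : IsUnif A₀ ϖ₀) (hℓ : ¬ ℓ ∣ M) (hℓA : (ℓ : K₀) / ϖ₀ ∈ A₀)
    (D : BaseData M ℓ) {Ow : ValuationSubring (FK K₀ M)} (hG : IsGauss A₀ ϖ₀ (FK K₀ M) Ow) :
    IsCover (A₀.toSubring.map (algebraMap K₀ (FK K₀ M))) (D.xK K₀)
      (chart A₀.toSubring (D.xK K₀)) (chart A₀.toSubring (D.xK K₀)⁻¹) := by
  haveI : CharZero K₀ := algebraRat.charZero K₀
  exact isCover_chart (isVert_base h₀ hℓ hℓA D hG) (isCoord_base h₀ D hG)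
    (isCoord_base_inv h₀ D hG)

/-- Everything at once. -/
theorem exists_good_model [Algebra K₀ Kbar] (h₀ : IsUnif A₀ ϖ₀) (hℓ : ¬ ℓ ∣ M)
    (hℓA : (ℓ : K₀) / ϖ₀ ∈ A₀) (D : BaseData M ℓ) :
    ∃ Ow : ValuationSubring (FK K₀ M), IsGauss A₀ ϖ₀ (FK K₀ M) Ow ∧
      IsVert A₀ ϖ₀ Ow K₀⟮D.xK K₀⟯ ∧
      IsCoord A₀ ϖ₀ Ow K₀⟮D.xK K₀⟯ (D.xK K₀) ∧ IsCoord A₀ ϖ₀ Ow K₀⟮D.xK K₀⟯ (D.xK K₀)⁻¹ ∧
      IsChart Ow (algebraMap K₀ (FK K₀ M) ϖ₀) (chart A₀.toSubring (D.xK K₀)) ∧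
      IsChart Ow (algebraMap K₀ (FK K₀ M) ϖ₀) (chart A₀.toSubring (D.xK K₀)⁻¹) ∧
      IsCover (A₀.toSubring.map (algebraMap K₀ (FK K₀ M))) (D.xK K₀)
        (chart A₀.toSubring (D.xK K₀)) (chart A₀.toSubring (D.xK K₀)⁻¹) := by
  obtain ⟨Ow, hG⟩ := exists_isGauss h₀ M
  exact ⟨Ow, hG, isVert_base h₀ hℓ hℓA D hG, isCoord_base h₀ D hG, isCoord_base_inv h₀ D hG,
    isChart_base h₀ hℓ hℓA D hG, isChart_base_inv h₀ hℓ hℓA D hG, isCover_base h₀ hℓ hℓA D hG⟩

end Main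

end Fermat.Agent.S18.Export
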